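import Fermat.Agent.P1Count.Basic

/-!
# The index of `Γ₀(N)` is `ψ(N)`
-/

set_option autoImplicit false

namespace Fermat.Agent.P1Count

open Matrix Matrix.SpecialLinearGroup CongruenceSubgroup ModularCurve
open scoped MatrixGroups

/-- `(SL₂(ℤ)/Γ₀(N)) × (ℤ/N)ˣ` is in bijection with unimodular pairs. -/
theorem card_coset_mul_totient (N : ℕ) [NeZero N] :
    Nat.card (SL(2, ℤ) ⧸ Gamma0 N) * Nat.totient N = Nat.card (UniPair (ZMod N)) := by
  have hun : Nat.totient N = Nat.card (ZMod N)ˣ := by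
    rw [Nat.card_eq_fintype_card, ZMod.card_units_eq_totient]
  rw [hun, ← Nat.card_prod]
  let f : (SL(2, ℤ) ⧸ Gamma0 N) × (ZMod N)ˣ → UniPair (ZMod N) := fun xu =>
    ⟨((xu.2 : ZMod N) * ((xu.1.out 0 0 : ℤ) : ZMod N), (xu.2 : ZMod N) * ((xu.1.out 1 0 : ℤ) : ZMod N)), by
      have := isCoprime_col_zmod N xu.1.out
      exact (isCoprime_mul_unit_left xu.2.isUnit _ _).2 this⟩
  refine Nat.card_congr (Equiv.ofBijective f ⟨?_, ?_⟩)
  · rintro ⟨x, u⟩ ⟨y, v⟩ hxy
    have h1 : (u : ZMod N) * ((x.out 0 0 : ℤ) : ZMod N) = v * ((y.out 0 0 : ℤ) : ZMod N) :=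
      congrArg (fun w : UniPair (ZMod N) => w.1.1) hxy
    have h2 : (u : ZMod N) * ((x.out 1 0 : ℤ) : ZMod N) = v * ((y.out 1 0 : ℤ) : ZMod N) :=
      congrArg (fun w : UniPair (ZMod N) => w.1.2) hxy
    have hxy' : x = y := by
      rw [← QuotientGroup.out_eq' x, ← QuotientGroup.out_eq' y, mk_eq_mk_iff]
      refine ⟨v⁻¹ * u, ?_, ?_⟩
      · rw [Units.val_mul, mul_assoc, h1, ← mul_assoc, Units.inv_mul, one_mul]
      · rw [Units.val_mul, mul_assoc, h2, ← mul_assoc, Units.inv_mul, one_mul]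
    subst hxy'
    have : (u : ZMod N) = v := unit_eq_of_mul_eq (isCoprime_col_zmod N x.out) h1 h2
    rw [Units.ext this]
  · rintro ⟨⟨a, c⟩, hac⟩
    obtain ⟨g, hg0, hg1⟩ := exists_col N a c hac
    have h1 : (QuotientGroup.mk ((QuotientGroup.mk g : SL(2, ℤ) ⧸ Gamma0 N).out) :
        SL(2, ℤ) ⧸ Gamma0 N) = QuotientGroup.mk g := QuotientGroup.out_eq' _
    obtain ⟨u, hu0, hu1⟩ := (mk_eq_mk_iff N _ _).1 h1
    refine ⟨(QuotientGroup.mk g, u), Subtype.ext (Prod.ext ?_ ?_)⟩
    · show (u : ZMod N) * _ = a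
      rw [← hu0, hg0]
    · show (u : ZMod N) * _ = c
      rw [← hu1, hg1]

theorem card_uniPair_congr {R S : Type*} [CommRing R] [CommRing S] (e : R ≃+* S) :
    Nat.card (UniPair R) = Nat.card (UniPair S) := by
  refine Nat.card_congr ((e.toEquiv.prodCongr e.toEquiv).subtypeEquiv ?_)
  rintro ⟨a, c⟩
  constructor
  · intro h
    exact h.map (e : R →+* S)
  · intro h
    have := h.map (e.symm : S →+* R)
    simpa using this

theorem card_uniPair_prod (R S : Type*) [CommRing R] [CommRing S] :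
    Nat.card (UniPair (R × S)) = Nat.card (UniPair R) * Nat.card (UniPair S) := by
  rw [← Nat.card_prod]
  refine Nat.card_congr
    { toFun := fun v => (⟨(v.1.1.1, v.1.2.1), ?_⟩, ⟨(v.1.1.2, v.1.2.2), ?_⟩)
      invFun := fun w => ⟨((w.1.1.1, w.2.1.1), (w.1.1.2, w.2.1.2)), ?_⟩
      left_inv := fun v => rfl
      right_inv := fun w => rfl }
  · exact v.2.map (RingHom.fst R S)
  · exact v.2.map (RingHom.snd R S)
  · obtain ⟨x, y, h⟩ := w.1.2
    obtain ⟨x', y', h'⟩ := w.2.2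
    exact ⟨(x, x'), (y, y'), Prod.ext h h'⟩

/-- Nonunits in `ℤ/p^(k+1)`. -/
theorem card_nonunit_primePow (p k : ℕ) (hp : p.Prime) :
    Nat.card {a : ZMod (p ^ (k + 1)) // ¬ IsUnit a} = p ^ k := by
  haveI : NeZero (p ^ (k + 1)) := ⟨pow_ne_zero _ hp.ne_zero⟩
  classical
  have h1 : Nat.card {a : ZMod (p ^ (k + 1)) // IsUnit a} = p ^ k * (p - 1) := by
    rw [← Nat.totient_prime_pow_succ hp k, ← ZMod.card_units_eq_totient, ← Nat.card_eq_fintype_card]
    exact Nat.card_congr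
      { toFun := fun a => a.2.unit
        invFun := fun u => ⟨u, u.isUnit⟩
        left_inv := fun a => Subtype.ext rfl
        right_inv := fun u => Units.ext rfl }
  have h2 : Nat.card {a : ZMod (p ^ (k + 1)) // IsUnit a} +
      Nat.card {a : ZMod (p ^ (k + 1)) // ¬ IsUnit a} = p ^ (k + 1) := by
    rw [← Nat.card_sum, Nat.card_congr (Equiv.sumCompl (fun a : ZMod (p ^ (k + 1)) => IsUnit a)),
      Nat.card_zmod]
  have h3 : p ^ (k + 1) = p ^ k * (p - 1) + p ^ k := by
    obtain ⟨q, rfl⟩ : ∃ q, p = q + 1 := ⟨p - 1, by have := hp.pos; omega⟩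
    rw [Nat.add_sub_cancel]; ring
  omega

theorem isCoprime_iff_primePow (p k : ℕ) (hp : p.Prime) (a c : ZMod (p ^ (k + 1))) :
    IsCoprime a c ↔ IsUnit a ∨ IsUnit c := by
  constructor
  · intro h
    by_contra hcon
    push Not at hcon
    obtain ⟨ha, hc⟩ := hcon
    haveI : NeZero (p ^ (k + 1)) := ⟨pow_ne_zero _ hp.ne_zero⟩
    have key : ∀ x : ZMod (p ^ (k + 1)), ¬ IsUnit x → p ∣ x.val := by
      intro x hx
      by_contra hpx
      apply hx
      rw [← ZMod.natCast_zmod_val x, ZMod.isUnit_iff_coprime]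
      exact Nat.Coprime.pow_right _ ((Nat.Prime.coprime_iff_not_dvd hp).2 hpx).symm
    have hpd : p ∣ p ^ (k + 1) := dvd_pow_self _ (Nat.succ_ne_zero k)
    obtain ⟨x, y, hxy⟩ := h
    have h1 := congrArg (ZMod.castHom hpd (ZMod p)) hxy
    have hz : ∀ x : ZMod (p ^ (k + 1)), ¬ IsUnit x → ZMod.castHom hpd (ZMod p) x = 0 := by
      intro x hx
      rw [← ZMod.natCast_zmod_val x, map_natCast, ZMod.natCast_eq_zero_iff]
      exact key x hx
    rw [map_add, map_mul, map_mul, hz a ha, hz c hc, map_one, mul_zero, mul_zero, add_zero] at h1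
    haveI : Fact p.Prime := ⟨hp⟩
    exact zero_ne_one h1
  · rintro (h | h)
    · obtain ⟨u, rfl⟩ := h
      exact ⟨(u⁻¹ : (ZMod (p ^ (k + 1)))ˣ), 0, by simp⟩
    · obtain ⟨u, rfl⟩ := h
      exact ⟨0, (u⁻¹ : (ZMod (p ^ (k + 1)))ˣ), by simp⟩

theorem card_uniPair_primePow (p k : ℕ) (hp : p.Prime) :
    Nat.card (UniPair (ZMod (p ^ (k + 1)))) + (p ^ k) ^ 2 = (p ^ (k + 1)) ^ 2 := by
  haveI : NeZero (p ^ (k + 1)) := ⟨pow_ne_zero _ hp.ne_zero⟩
  classical
  have h1 : Nat.card {v : ZMod (p ^ (k + 1)) × ZMod (p ^ (k + 1)) // ¬ IsCoprime v.1 v.2} =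
      (p ^ k) ^ 2 := by
    rw [sq, ← card_nonunit_primePow p k hp, ← Nat.card_prod]
    refine Nat.card_congr
      { toFun := fun v => (⟨v.1.1, ?_⟩, ⟨v.1.2, ?_⟩)
        invFun := fun w => ⟨(w.1.1, w.2.1), ?_⟩
        left_inv := fun v => rfl
        right_inv := fun w => rfl }
    · intro h; exact v.2 ((isCoprime_iff_primePow p k hp _ _).2 (Or.inl h))
    · intro h; exact v.2 ((isCoprime_iff_primePow p k hp _ _).2 (Or.inr h))
    · intro h
      rcases (isCoprime_iff_primePow p k hp _ _).1 h with h | h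
      · exact w.1.2 h
      · exact w.2.2 h
  rw [← h1, ← Nat.card_sum, Nat.card_congr (Equiv.sumCompl
    (fun v : ZMod (p ^ (k + 1)) × ZMod (p ^ (k + 1)) => IsCoprime v.1 v.2)), Nat.card_prod,
    Nat.card_zmod, sq]

/-- `ψ` at prime powers. -/
theorem dedekindPsi_primePow (p k : ℕ) (hp : p.Prime) :
    dedekindPsi (p ^ (k + 1)) = p ^ (k + 1) + p ^ k := by
  rw [dedekindPsi, Nat.divisors_prime_pow hp, Finset.sum_filter, Finset.sum_map]
  have h1 : ∀ i ∈ Finset.range (k + 1 + 1), (if Squarefree (p ^ i) then p ^ (k + 1) / p ^ i else 0) =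
      if i = 0 then p ^ (k + 1) else if i = 1 then p ^ k else 0 := by
    intro i hi
    rcases Nat.lt_or_ge i 2 with h2 | h2
    · interval_cases i
      · simp
      · rw [pow_one, if_pos hp.squarefree]
        simp only [one_ne_zero, if_false, if_true]
        rw [pow_succ, Nat.mul_div_cancel _ hp.pos]
    · rw [if_neg, if_neg (by omega), if_neg (by omega)]
      intro hsq
      have := hsq p (by rw [← sq]; exact pow_dvd_pow p h2)
      exact hp.not_isUnit this
  show ∑ i ∈ Finset.range (k + 1 + 1), (if Squarefree (p ^ i) then p ^ (k + 1) / p ^ i else 0) = _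
  rw [Finset.sum_congr rfl h1, Finset.sum_range_succ', Finset.sum_range_succ']
  simp only [Nat.add_eq_zero_iff, one_ne_zero, and_false, if_false, Nat.add_eq_right,
    Finset.sum_const_zero, zero_add, if_true]
  have : ∀ i : ℕ, (if i + 1 + 1 = 1 then p ^ k else 0) = 0 := fun i => if_neg (by omega)
  simp [this, add_comm]

/-- `ψ` is multiplicative. -/
theorem dedekindPsi_mul (m n : ℕ) (h : Nat.Coprime m n) :
    dedekindPsi (m * n) = dedekindPsi m * dedekindPsi n := by
  have key : ∀ N : ℕ, dedekindPsi N =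
      ∑ d ∈ N.divisors, (if Squarefree d then N / d else 0) := by
    intro N; rw [dedekindPsi, Finset.sum_filter]
  rw [key, key, key, Finset.sum_mul_sum, ← Finset.sum_product']
  have hdiv : (m * n).divisors = (m.divisors ×ˢ n.divisors).image (fun p : ℕ × ℕ => p.1 * p.2) := by
    rw [← Finset.mul_def, Nat.divisors_mul]
  rw [hdiv, Finset.sum_image h.mul_injOn_divisors]
  refine Finset.sum_congr rfl ?_
  rintro ⟨d, e⟩ hde
  rw [Finset.mem_product, Nat.mem_divisors, Nat.mem_divisors] at hde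
  obtain ⟨⟨hd, hm0⟩, he, hn0⟩ := hde
  have hc : Nat.Coprime d e := Nat.Coprime.coprime_dvd_left hd (Nat.Coprime.coprime_dvd_right he h)
  show (if Squarefree (d * e) then m * n / (d * e) else 0) =
    (if Squarefree d then m / d else 0) * (if Squarefree e then n / e else 0)
  have hsq := Nat.squarefree_mul (m := d) (n := e) hc
  have hdivmul : m * n / (d * e) = (m / d) * (n / e) := Nat.mul_div_mul_comm hd he
  rw [hdivmul]
  by_cases h1 : Squarefree d
  · by_cases h2 : Squarefree e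
    · rw [if_pos (hsq.2 ⟨h1, h2⟩), if_pos h1, if_pos h2]
    · rw [if_neg (fun h3 => h2 (hsq.1 h3).2), if_neg h2, mul_zero]
  · rw [if_neg (fun h3 => h1 (hsq.1 h3).1), if_neg h1, zero_mul]

/-- The number of unimodular pairs modulo `N` is `ψ(N) φ(N)`. -/
theorem card_uniPair (N : ℕ) [hN : NeZero N] :
    Nat.card (UniPair (ZMod N)) = dedekindPsi N * Nat.totient N := by
  obtain ⟨hN⟩ := hN
  induction N using Nat.recOnPosPrimePosCoprime with
  | prime_pow p k hp hk =>
    obtain ⟨k, rfl⟩ : ∃ j, k = j + 1 := ⟨k - 1, by omega⟩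
    rw [dedekindPsi_primePow p k hp, Nat.totient_prime_pow_succ hp]
    have h := card_uniPair_primePow p k hp
    obtain ⟨q, rfl⟩ : ∃ q, p = q + 1 := ⟨p - 1, by have := hp.pos; omega⟩
    rw [Nat.add_sub_cancel]
    have h' : (((q + 1) ^ (k + 1) + (q + 1) ^ k) * ((q + 1) ^ k * q)) + ((q + 1) ^ k) ^ 2 =
        ((q + 1) ^ (k + 1)) ^ 2 := by ring
    omega
  | zero => exact absurd rfl hN
  | one =>
    rw [dedekindPsi_one, Nat.totient_one, mul_one]
    haveI : Subsingleton (ZMod 1) := inferInstance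
    rw [Nat.card_eq_one_iff_unique]
    refine ⟨⟨fun a b => Subtype.ext (Subsingleton.elim _ _)⟩, ⟨⟨(0, 0), ⟨0, 0, Subsingleton.elim _ _⟩⟩⟩⟩
  | coprime a b ha hb hab iha ihb =>
    rw [card_uniPair_congr (ZMod.chineseRemainder hab), card_uniPair_prod,
      iha (by omega), ihb (by omega), dedekindPsi_mul a b hab, Nat.totient_mul hab]
    ring

/-- **The index of `Γ₀(N)`** (cardinality of the coset space). -/
theorem card_coset (N : ℕ) [NeZero N] : Nat.card (SL(2, ℤ) ⧸ Gamma0 N) = dedekindPsi N := by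
  have h1 := card_coset_mul_totient N
  rw [card_uniPair N] at h1
  exact Nat.eq_of_mul_eq_mul_right (Nat.totient_pos.2 (Nat.pos_of_ne_zero (NeZero.ne N))) h1

/-- **The index of `Γ₀(N)` is `ψ(N)`**. -/
theorem index_Gamma0 (N : ℕ) [NeZero N] : (Gamma0 N).index = dedekindPsi N :=
  card_coset N

end Fermat.Agent.P1Count
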