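import Fermat.Agent.P1Count.Index

/-!
# Elliptic points and cusps of `Γ₀(N)`: combinatorial counts
-/

set_option autoImplicit false

namespace Fermat.Agent.P1Count

open Matrix Matrix.SpecialLinearGroup CongruenceSubgroup ModularCurve ModularGroup
open scoped MatrixGroups

/-- Fixed points of `g` on cosets, in terms of columns. -/
theorem smul_mk_eq_iff (N : ℕ) (s g : SL(2, ℤ)) :
    s • (QuotientGroup.mk g : SL(2, ℤ) ⧸ Gamma0 N) = QuotientGroup.mk g ↔
      ∃ u : (ZMod N)ˣ,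
        ((g 0 0 : ℤ) : ZMod N) = u * ((s 0 0 : ℤ) * (g 0 0 : ℤ) + (s 0 1 : ℤ) * (g 1 0 : ℤ)) ∧
        ((g 1 0 : ℤ) : ZMod N) = u * ((s 1 0 : ℤ) * (g 0 0 : ℤ) + (s 1 1 : ℤ) * (g 1 0 : ℤ)) := by
  have h : s • (QuotientGroup.mk g : SL(2, ℤ) ⧸ Gamma0 N) = QuotientGroup.mk (s * g) := rfl
  rw [h, mk_eq_mk_iff]
  have h0 : (s * g) 0 0 = s 0 0 * g 0 0 + s 0 1 * g 1 0 := by
    simp [Matrix.mul_apply, Fin.sum_univ_two]
  have h1 : (s * g) 1 0 = s 1 0 * g 0 0 + s 1 1 * g 1 0 := by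
    simp [Matrix.mul_apply, Fin.sum_univ_two]
  rw [h0, h1]
  push_cast
  rfl

/-- General count: an element `s` whose action fixes `(a : c)` iff `a` is a unit and `c/a`
is a root of a quadratic polynomial. -/
theorem card_fixed_aux (N : ℕ) [NeZero N] (s : SL(2, ℤ)) (P : ZMod N → Prop)
    (h1 : ∀ x : ZMod N, P x → ∃ u : (ZMod N)ˣ,
      (1 : ZMod N) = u * ((s 0 0 : ℤ) * 1 + (s 0 1 : ℤ) * x) ∧
      x = u * ((s 1 0 : ℤ) * 1 + (s 1 1 : ℤ) * x))
    (h2 : ∀ a c : ZMod N, IsCoprime a c → ∀ u : (ZMod N)ˣ,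
      a = u * ((s 0 0 : ℤ) * a + (s 0 1 : ℤ) * c) → c = u * ((s 1 0 : ℤ) * a + (s 1 1 : ℤ) * c) →
      ∃ v : (ZMod N)ˣ, ∃ x : ZMod N, P x ∧ a = v ∧ c = v * x) :
    Nat.card {x : SL(2, ℤ) ⧸ Gamma0 N // s • x = x} = Nat.card {x : ZMod N // P x} := by
  symm
  have hex : ∀ x : ZMod N, ∃ g : SL(2, ℤ), ((g 0 0 : ℤ) : ZMod N) = 1 ∧ ((g 1 0 : ℤ) : ZMod N) = x :=
    fun x => exists_col N 1 x isCoprime_one_left
  choose G hG0 hG1 using hex
  let f : {x : ZMod N // P x} → {x : SL(2, ℤ) ⧸ Gamma0 N // s • x = x} := fun x =>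
    ⟨QuotientGroup.mk (G x.1), by
      rw [smul_mk_eq_iff, hG0, hG1]
      exact h1 x.1 x.2⟩
  refine Nat.card_congr (Equiv.ofBijective f ⟨?_, ?_⟩)
  · rintro ⟨x, hx⟩ ⟨y, hy⟩ hxy
    have h : (QuotientGroup.mk (G x) : SL(2, ℤ) ⧸ Gamma0 N) = QuotientGroup.mk (G y) :=
      congrArg Subtype.val hxy
    rw [mk_eq_mk_iff, hG0, hG1, hG0, hG1] at h
    obtain ⟨u, hu0, hu1⟩ := h
    rw [mul_one] at hu0
    rw [← hu0, one_mul] at hu1
    exact Subtype.ext hu1.symm
  · rintro ⟨y, hy⟩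
    induction y using QuotientGroup.induction_on with
    | H g =>
      rw [smul_mk_eq_iff] at hy
      obtain ⟨u, hu0, hu1⟩ := hy
      obtain ⟨v, x, hx, hv0, hv1⟩ := h2 _ _ (isCoprime_col_zmod N g) u hu0 hu1
      refine ⟨⟨x, hx⟩, Subtype.ext ?_⟩
      show (QuotientGroup.mk (G x) : SL(2, ℤ) ⧸ Gamma0 N) = QuotientGroup.mk g
      rw [mk_eq_mk_iff, hG0, hG1]
      exact ⟨v, by rw [mul_one]; exact hv0, hv1⟩

/-- **Elliptic points of order two.** -/
theorem card_fixed_S (N : ℕ) [NeZero N] :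
    Nat.card {x : SL(2, ℤ) ⧸ Gamma0 N // S • x = x} = nuTwo N := by
  have e00 : S 0 0 = 0 := rfl
  have e01 : S 0 1 = -1 := rfl
  have e10 : S 1 0 = 1 := rfl
  have e11 : S 1 1 = 0 := rfl
  rw [nuTwo]
  refine card_fixed_aux N S (fun x => x ^ 2 + 1 = 0) ?_ ?_
  · intro x hx
    rw [e00, e01, e10, e11]
    refine ⟨⟨x, -x, by linear_combination -hx, by linear_combination -hx⟩, ?_, ?_⟩
    · push_cast
      linear_combination hx
    · push_cast
      ring
  · intro a c hac u h0 h1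
    rw [e00, e01] at h0
    rw [e10, e11] at h1
    push_cast at h0 h1
    -- a = -u c, c = u a
    have h0' : a = -(u * c) := by linear_combination h0
    have h1' : c = u * a := by linear_combination h1
    have ha : IsUnit a := by
      obtain ⟨x, y, hxy⟩ := hac
      refine IsUnit.of_mul_eq_one (x + y * u) ?_
      rw [h1'] at hxy
      linear_combination hxy
    obtain ⟨v, hv⟩ := ha
    refine ⟨v, u, ?_, hv.symm, ?_⟩
    · have h3 : (v : ZMod N) * ((u : ZMod N) ^ 2 + 1) = 0 := by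
        rw [hv]
        rw [h1'] at h0'
        linear_combination h0'
      exact (Units.mul_right_eq_zero v).1 h3
    · rw [hv, h1', mul_comm]

/-- **Elliptic points of order three.** -/
theorem card_fixed_ST (N : ℕ) [NeZero N] :
    Nat.card {x : SL(2, ℤ) ⧸ Gamma0 N // (S * T) • x = x} = nuThree N := by
  have e00 : (S * T) 0 0 = 0 := by simp [S, T, Matrix.mul_apply, Fin.sum_univ_two]
  have e01 : (S * T) 0 1 = -1 := by simp [S, T, Matrix.mul_apply, Fin.sum_univ_two]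
  have e10 : (S * T) 1 0 = 1 := by simp [S, T, Matrix.mul_apply, Fin.sum_univ_two]
  have e11 : (S * T) 1 1 = 1 := by simp [S, T, Matrix.mul_apply, Fin.sum_univ_two]
  rw [nuThree]
  refine card_fixed_aux N (S * T) (fun x => x ^ 2 + x + 1 = 0) ?_ ?_
  · intro x hx
    rw [e00, e01, e10, e11]
    refine ⟨⟨x + 1, -x, by linear_combination -hx, by linear_combination -hx⟩, ?_, ?_⟩
    · push_cast
      linear_combination hx
    · push_cast
      linear_combination -hx
  · intro a c hac u h0 h1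
    rw [e00, e01] at h0
    rw [e10, e11] at h1
    push_cast at h0 h1
    -- a = -u c, c = u (a + c)
    have h0' : a = -(u * c) := by linear_combination h0
    have h1' : c = u * a + u * c := by linear_combination h1
    -- so c = u a - a = (u - 1) a
    have h2' : c = (u - 1) * a := by linear_combination h1' + h0'
    have ha : IsUnit a := by
      obtain ⟨x, y, hxy⟩ := hac
      refine IsUnit.of_mul_eq_one (x + y * (u - 1)) ?_
      rw [h2'] at hxy
      linear_combination hxy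
    obtain ⟨v, hv⟩ := ha
    refine ⟨v, u - 1, ?_, hv.symm, ?_⟩
    · have h3 : (v : ZMod N) * (((u : ZMod N) - 1) ^ 2 + (u - 1) + 1) = 0 := by
        rw [hv]
        rw [h2'] at h0'
        linear_combination h0'
      exact (Units.mul_right_eq_zero v).1 h3
    · rw [hv, h2', mul_comm]

end Fermat.Agent.P1Count
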