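import Fermat.Agent.P1Count.Index

/-!
# Cusps of `Γ₀(N)`: orbits of `T` on `SL(2,ℤ) ⧸ Γ₀(N)`
-/

set_option autoImplicit false

namespace Fermat.Agent.P1Count

open Matrix Matrix.SpecialLinearGroup CongruenceSubgroup ModularCurve ModularGroup
open scoped MatrixGroups

/-- The orbit space of `T` acting on cosets of `Γ₀(N)`. -/
abbrev CuspSpace (N : ℕ) : Type :=
  MulAction.orbitRel.Quotient (Subgroup.zpowers T) (SL(2, ℤ) ⧸ Gamma0 N)

/-- Class of an element of `SL(2,ℤ)` in the cusp space. -/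
def cuspMk (N : ℕ) (g : SL(2, ℤ)) : CuspSpace N :=
  Quotient.mk'' (QuotientGroup.mk g : SL(2, ℤ) ⧸ Gamma0 N)

theorem cuspMk_surjective (N : ℕ) : Function.Surjective (cuspMk N) := by
  intro x
  induction x using Quotient.inductionOn' with
  | h y =>
    induction y using QuotientGroup.induction_on with
    | H g => exact ⟨g, rfl⟩

theorem cuspMk_eq_iff (N : ℕ) (g h : SL(2, ℤ)) :
    cuspMk N g = cuspMk N h ↔
      ∃ u : (ZMod N)ˣ, ∃ t : ℤ,
        ((h 0 0 : ℤ) : ZMod N) = u * (((g 0 0 : ℤ) : ZMod N) + t * (g 1 0 : ℤ)) ∧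
        ((h 1 0 : ℤ) : ZMod N) = u * ((g 1 0 : ℤ) : ZMod N) := by
  have key : ∀ t : ℤ, (QuotientGroup.mk (T ^ t * g) : SL(2, ℤ) ⧸ Gamma0 N) = QuotientGroup.mk h ↔
      ∃ u : (ZMod N)ˣ,
        ((h 0 0 : ℤ) : ZMod N) = u * (((g 0 0 : ℤ) : ZMod N) + t * (g 1 0 : ℤ)) ∧
        ((h 1 0 : ℤ) : ZMod N) = u * ((g 1 0 : ℤ) : ZMod N) := by
    intro t
    rw [mk_eq_mk_iff]
    have h0 : (T ^ t * g) 0 0 = g 0 0 + t * g 1 0 := by
      simp [Matrix.mul_apply, Fin.sum_univ_two, coe_T_zpow]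
    have h1 : (T ^ t * g) 1 0 = g 1 0 := by
      simp
    rw [h0, h1]
    push_cast
    rfl
  rw [cuspMk, cuspMk, Quotient.eq'', MulAction.orbitRel_apply, MulAction.mem_orbit_iff]
  constructor
  · rintro ⟨⟨γ, t, rfl⟩, hγ⟩
    -- T^t • h = g
    have h1 : (QuotientGroup.mk (T ^ (-t) * g) : SL(2, ℤ) ⧸ Gamma0 N) = QuotientGroup.mk h := by
      have h2 : (QuotientGroup.mk (T ^ t * h) : SL(2, ℤ) ⧸ Gamma0 N) = QuotientGroup.mk g := hγ
      have h3 : (T ^ (-t)) • (QuotientGroup.mk (T ^ t * h) : SL(2, ℤ) ⧸ Gamma0 N) =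
        (T ^ (-t)) • (QuotientGroup.mk g : SL(2, ℤ) ⧸ Gamma0 N) := by rw [h2]
      have h4 : (T ^ (-t)) • (QuotientGroup.mk (T ^ t * h) : SL(2, ℤ) ⧸ Gamma0 N) =
        QuotientGroup.mk (T ^ (-t) * (T ^ t * h)) := rfl
      rw [h4, ← mul_assoc, ← _root_.zpow_add, neg_add_cancel, zpow_zero, one_mul] at h3
      exact h3.symm
    obtain ⟨u, hu⟩ := (key (-t)).1 h1
    exact ⟨u, -t, hu⟩
  · rintro ⟨u, t, hu⟩
    have h1 := (key t).2 ⟨u, hu⟩
    refine ⟨⟨T ^ (-t), -t, rfl⟩, ?_⟩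
    show (T ^ (-t)) • (QuotientGroup.mk h : SL(2, ℤ) ⧸ Gamma0 N) = QuotientGroup.mk g
    rw [← h1]
    show (QuotientGroup.mk (T ^ (-t) * (T ^ t * g)) : SL(2, ℤ) ⧸ Gamma0 N) = QuotientGroup.mk g
    rw [← mul_assoc, ← _root_.zpow_add, neg_add_cancel, zpow_zero, one_mul]

/-- A chosen lift of a unit modulo `gcd(g, N/g)` to a natural number coprime to `g`. -/
theorem exists_unit_lift (g m : ℕ) (hg : g ≠ 0) (w : (ZMod (Nat.gcd g m))ˣ) :
    ∃ a : ℕ, Nat.Coprime a g ∧ ((a : ℕ) : ZMod (Nat.gcd g m)) = w := by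
  haveI : NeZero g := ⟨hg⟩
  obtain ⟨y, hy⟩ := ZMod.unitsMap_surjective (Nat.gcd_dvd_left g m) w
  refine ⟨(y : ZMod g).val, ZMod.val_coe_unit_coprime y, ?_⟩
  rw [← hy, ZMod.unitsMap_val, ZMod.natCast_val]

theorem isCoprime_natCast_zmod (N a g : ℕ) (h : Nat.Coprime a g) :
    IsCoprime ((a : ℕ) : ZMod N) ((g : ℕ) : ZMod N) := by
  have := (Nat.isCoprime_iff_coprime.2 h).map (Int.castRingHom (ZMod N))
  simpa using this

/-- The key number-theoretic lemma: two pairs `(a, g)`, `(a', g)` with `g ∣ N` are equivalent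
under `Γ₀(N)` and `T` iff `a ≡ a' mod gcd(g, N/g)`. -/
theorem exists_unit_of_modEq (N g m : ℕ) [NeZero N] (hN : N = g * m) (a a' : ℕ)
    (ha : Nat.Coprime a g) (ha' : Nat.Coprime a' g)
    (h : ((a : ℕ) : ZMod (Nat.gcd g m)) = (a' : ZMod (Nat.gcd g m))) :
    ∃ u : (ZMod N)ˣ, ∃ t : ℤ, ((a' : ℕ) : ZMod N) = u * ((a : ZMod N) + t * (g : ZMod N)) ∧
      ((g : ℕ) : ZMod N) = u * (g : ZMod N) := by
  have hN0 : N ≠ 0 := NeZero.ne N
  have hg0 : g ≠ 0 := by rintro rfl; simp at hN; exact hN0 hN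
  have hm0 : m ≠ 0 := by rintro rfl; simp at hN; exact hN0 hN
  haveI : NeZero g := ⟨hg0⟩
  -- inverse of a mod g
  obtain ⟨b, hb⟩ : ∃ b : ℕ, a * b ≡ a' [MOD g] := by
    have hu := ZMod.unitOfCoprime a ha
    refine ⟨((ZMod.unitOfCoprime a ha)⁻¹ * (a' : ZMod g) : ZMod g).val, ?_⟩
    rw [← ZMod.natCast_eq_natCast_iff]
    push_cast
    rw [ZMod.natCast_zmod_val]
    have h1 : ((a : ℕ) : ZMod g) = (ZMod.unitOfCoprime a ha : (ZMod g)ˣ) :=
      (ZMod.coe_unitOfCoprime a ha).symm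
    rw [h1, ← mul_assoc, Units.mul_inv, one_mul]
  -- b is coprime to g, and b = 1 mod gcd
  have hbg : Nat.Coprime b g := by
    have h1 : Nat.Coprime (a * b) g := by
      rw [Nat.coprime_iff_gcd_eq_one, hb.gcd_eq]
      exact ha'
    exact Nat.Coprime.coprime_mul_left h1
  have hb1 : b ≡ 1 [MOD Nat.gcd g m] := by
    have h1 : a * b ≡ a' [MOD Nat.gcd g m] := hb.of_dvd (Nat.gcd_dvd_left g m)
    have h2 : a ≡ a' [MOD Nat.gcd g m] := (ZMod.natCast_eq_natCast_iff _ _ _).1 h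
    have h3 : a * b ≡ a * 1 [MOD Nat.gcd g m] := by rw [mul_one]; exact h1.trans h2.symm
    have hc : Nat.gcd (Nat.gcd g m) a = 1 :=
      Nat.Coprime.coprime_dvd_left (Nat.gcd_dvd_left g m) ha.symm
    exact Nat.ModEq.cancel_left_of_coprime hc h3
  -- solve u = b mod g, u = 1 mod m
  obtain ⟨u, hu1, hu2⟩ := Nat.chineseRemainder' hb1
  have hug : Nat.Coprime u g := by
    rw [Nat.coprime_iff_gcd_eq_one, hu1.gcd_eq]; exact hbg
  have hum : Nat.Coprime u m := by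
    rw [Nat.coprime_iff_gcd_eq_one, hu2.gcd_eq]; exact Nat.gcd_one_left m
  have huN : Nat.Coprime u N := by rw [hN]; exact Nat.Coprime.mul_right hug hum
  -- u * a ≡ a' mod g
  have hua : u * a ≡ a' [MOD g] := (hu1.mul_right a).trans (by rw [mul_comm]; exact hb)
  set v : (ZMod N)ˣ := ZMod.unitOfCoprime u huN with hv
  have hvu : (v : ZMod N) = (u : ZMod N) := ZMod.coe_unitOfCoprime u huN
  -- u * g = g in ZMod N
  have hgg : ((u : ℕ) : ZMod N) * (g : ZMod N) = (g : ZMod N) := by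
    rw [← Nat.cast_mul, ZMod.natCast_eq_natCast_iff, hN]
    have := (hu2.mul_left' g)
    rw [mul_one] at this
    rw [mul_comm u g]
    exact this
  obtain ⟨t, ht⟩ : ∃ t : ℤ, (a' : ℤ) = u * a + g * t := by
    have h1 : (g : ℤ) ∣ (a' : ℤ) - (u * a : ℕ) := (Nat.modEq_iff_dvd).1 hua
    obtain ⟨t, ht⟩ := h1
    exact ⟨t, by push_cast at ht; linarith⟩
  refine ⟨v, t, ?_, ?_⟩
  · rw [hvu]
    have h1 : ((a' : ℤ) : ZMod N) = ((u * a + g * t : ℤ) : ZMod N) := by rw [ht]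
    push_cast at h1
    rw [h1]
    linear_combination (-(t : ZMod N)) * hgg
  · rw [hvu, hgg]

/-- Conversely. -/
theorem modEq_of_exists_unit (N g m : ℕ) [NeZero N] (hN : N = g * m) (a a' : ℕ)
    (h : ∃ u : (ZMod N)ˣ, ∃ t : ℤ, ((a' : ℕ) : ZMod N) = u * ((a : ZMod N) + t * (g : ZMod N)) ∧
      ((g : ℕ) : ZMod N) = u * (g : ZMod N)) :
    ((a : ℕ) : ZMod (Nat.gcd g m)) = (a' : ZMod (Nat.gcd g m)) := by
  have hN0 : N ≠ 0 := NeZero.ne N
  have hg0 : g ≠ 0 := by rintro rfl; simp at hN; exact hN0 hN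
  have hm0 : m ≠ 0 := by rintro rfl; simp at hN; exact hN0 hN
  obtain ⟨u, t, h1, h2⟩ := h
  have hgN : g ∣ N := ⟨m, hN⟩
  have hmN : m ∣ N := ⟨g, by rw [hN, mul_comm]⟩
  have heN : Nat.gcd g m ∣ N := (Nat.gcd_dvd_left g m).trans hgN
  -- u = 1 mod m
  have hu : ((g * (u : ZMod N).val : ℕ) : ZMod N) = ((g * 1 : ℕ) : ZMod N) := by
    push_cast
    rw [ZMod.natCast_zmod_val, mul_one]
    rw [mul_comm]; exact h2.symm
  rw [ZMod.natCast_eq_natCast_iff] at hu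
  have hu' : (u : ZMod N).val ≡ 1 [MOD m] := by
    apply Nat.ModEq.mul_left_cancel' hg0
    rw [← hN]; exact hu
  have hu'' : (((u : ZMod N).val : ℕ) : ZMod (Nat.gcd g m)) = 1 := by
    have := (ZMod.natCast_eq_natCast_iff _ _ _).2 (hu'.of_dvd (Nat.gcd_dvd_right g m))
    simpa using this
  have h3 := congrArg (ZMod.castHom heN (ZMod (Nat.gcd g m))) h1
  have hgz : ((g : ℕ) : ZMod (Nat.gcd g m)) = 0 :=
    (ZMod.natCast_eq_zero_iff _ _).2 (Nat.gcd_dvd_left g m)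
  rw [← ZMod.natCast_zmod_val (u : ZMod N)] at h3
  simp only [map_mul, map_add, map_natCast, map_intCast] at h3
  rw [hu'', hgz, mul_zero, add_zero, one_mul] at h3
  exact h3.symm

/-- **Number of cusps of `Γ₀(N)`**. -/
theorem card_orbits_T (N : ℕ) [NeZero N] :
    Nat.card (MulAction.orbitRel.Quotient (Subgroup.zpowers T) (SL(2, ℤ) ⧸ Gamma0 N)) =
      cuspCount N := by
  have hN0 : N ≠ 0 := NeZero.ne N
  symm
  -- the index set
  have hcard : cuspCount N = Nat.card (Σ g : N.divisors, (ZMod (Nat.gcd g.1 (N / g.1)))ˣ) := by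
    haveI : ∀ g : N.divisors, Fintype (ZMod (Nat.gcd g.1 (N / g.1)))ˣ := by
      intro g
      haveI : NeZero (Nat.gcd g.1 (N / g.1)) :=
        ⟨Nat.gcd_ne_zero_left (Nat.pos_of_mem_divisors g.2).ne'⟩
      infer_instance
    rw [Nat.card_sigma, cuspCount, ← Finset.sum_coe_sort]
    refine Finset.sum_congr rfl fun g _ => ?_
    haveI : NeZero (Nat.gcd g.1 (N / g.1)) :=
      ⟨Nat.gcd_ne_zero_left (Nat.pos_of_mem_divisors g.2).ne'⟩
    rw [Nat.card_eq_fintype_card, ← ZMod.card_units_eq_totient]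
  rw [hcard]
  have hdiv : ∀ g : N.divisors, N = g.1 * (N / g.1) := fun g =>
    (Nat.mul_div_cancel' (Nat.dvd_of_mem_divisors g.2)).symm
  -- choice of lifts
  have hex : ∀ x : (Σ g : N.divisors, (ZMod (Nat.gcd g.1 (N / g.1)))ˣ),
      ∃ a : ℕ, Nat.Coprime a x.1.1 ∧ ((a : ℕ) : ZMod (Nat.gcd x.1.1 (N / x.1.1))) = x.2 :=
    fun x => exists_unit_lift x.1.1 (N / x.1.1) (Nat.pos_of_mem_divisors x.1.2).ne' x.2
  choose A hA1 hA2 using hex
  have hex' : ∀ x : (Σ g : N.divisors, (ZMod (Nat.gcd g.1 (N / g.1)))ˣ),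
      ∃ γ : SL(2, ℤ), ((γ 0 0 : ℤ) : ZMod N) = (A x : ZMod N) ∧
        ((γ 1 0 : ℤ) : ZMod N) = ((x.1.1 : ℕ) : ZMod N) :=
    fun x => exists_col N _ _ (isCoprime_natCast_zmod N _ _ (hA1 x))
  choose γ hγ0 hγ1 using hex'
  refine Nat.card_congr (Equiv.ofBijective (fun x => cuspMk N (γ x)) ⟨?_, ?_⟩)
  · -- injectivity
    intro x y hxy
    have h := (cuspMk_eq_iff N (γ x) (γ y)).1 hxy
    rw [hγ0, hγ1, hγ0, hγ1] at h
    obtain ⟨⟨g, hg⟩, w⟩ := x
    obtain ⟨⟨g', hg'⟩, w'⟩ := y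
    obtain ⟨u, t, h1, h2⟩ := h
    dsimp only at h1 h2
    have hgg : g = g' := by
      have key : ∀ (g g' : ℕ) (u : (ZMod N)ˣ), g ∣ N → ((g' : ℕ) : ZMod N) = u * (g : ZMod N) →
          g ∣ g' := by
        intro g g' u hgN h
        have h3 := congrArg (ZMod.castHom hgN (ZMod g)) h
        rw [map_mul, map_natCast, map_natCast, ZMod.natCast_self, mul_zero,
          ZMod.natCast_eq_zero_iff] at h3
        exact h3
      refine Nat.dvd_antisymm (key g g' u (Nat.dvd_of_mem_divisors hg) h2)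
        (key g' g u⁻¹ (Nat.dvd_of_mem_divisors hg') ?_)
      rw [h2, ← mul_assoc, Units.inv_mul, one_mul]
    subst hgg
    have h3 := modEq_of_exists_unit N g (N / g) (hdiv ⟨g, hg⟩) _ _ ⟨u, t, h1, h2⟩
    have h4 : w = w' := by
      apply Units.ext
      have e1 := hA2 ⟨⟨g, hg⟩, w⟩
      have e2 := hA2 ⟨⟨g, hg⟩, w'⟩
      dsimp only at e1 e2
      rw [← e1, ← e2, h3]
    subst h4
    rfl
  · -- surjectivity
    intro c
    obtain ⟨g, rfl⟩ := cuspMk_surjective N c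
    obtain ⟨d, hdN, u, hu, hc⟩ := ZMod.eq_unit_mul_divisor ((g 1 0 : ℤ) : ZMod N)
    obtain ⟨u, rfl⟩ := hu
    -- scale by u⁻¹ : (u⁻¹ a, d)
    set a1 : ℕ := ((u⁻¹ : (ZMod N)ˣ) * ((g 0 0 : ℤ) : ZMod N) : ZMod N).val with ha1
    have ha1' : ((a1 : ℕ) : ZMod N) = (u⁻¹ : (ZMod N)ˣ) * ((g 0 0 : ℤ) : ZMod N) :=
      ZMod.natCast_zmod_val _
    have hcop1 : IsCoprime ((a1 : ℕ) : ZMod N) ((d : ℕ) : ZMod N) := by
      have h1 := isCoprime_col_zmod N g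
      rw [hc] at h1
      have h2 : ((g 0 0 : ℤ) : ZMod N) = u * (a1 : ZMod N) := by
        rw [ha1', ← mul_assoc, Units.mul_inv, one_mul]
      rw [h2] at h1
      exact (isCoprime_mul_unit_left u.isUnit _ _).1 h1
    have hcop : Nat.Coprime a1 d := by
      rw [Nat.coprime_iff_gcd_eq_one]
      set e := Nat.gcd a1 d with he
      have hea : e ∣ a1 := Nat.gcd_dvd_left _ _
      have hed : e ∣ d := Nat.gcd_dvd_right _ _
      have heN : e ∣ N := hed.trans hdN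
      obtain ⟨x, y, hxy⟩ := hcop1
      have h1 := congrArg (ZMod.castHom heN (ZMod e)) hxy
      rw [map_add, map_mul, map_mul, map_one, map_natCast, map_natCast,
        (ZMod.natCast_eq_zero_iff a1 e).2 hea, (ZMod.natCast_eq_zero_iff d e).2 hed] at h1
      have h2 : ((1 : ℕ) : ZMod e) = 0 := by simpa using h1.symm
      rw [ZMod.natCast_eq_zero_iff] at h2
      exact Nat.dvd_one.1 h2
    have hcope : Nat.Coprime a1 (Nat.gcd d (N / d)) :=
      Nat.Coprime.coprime_dvd_right (Nat.gcd_dvd_left _ _) hcop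
    have hdmem : d ∈ N.divisors := Nat.mem_divisors.2 ⟨hdN, hN0⟩
    let x : (Σ g : N.divisors, (ZMod (Nat.gcd g.1 (N / g.1)))ˣ) :=
      ⟨⟨d, hdmem⟩, ZMod.unitOfCoprime a1 hcope⟩
    refine ⟨x, ?_⟩
    have hmod : ((A x : ℕ) : ZMod (Nat.gcd d (N / d))) = (a1 : ZMod (Nat.gcd d (N / d))) := by
      rw [hA2 x]
      exact ZMod.coe_unitOfCoprime a1 hcope
    obtain ⟨v, t, hv1, hv2⟩ := exists_unit_of_modEq N d (N / d) (hdiv ⟨d, hdmem⟩) (A x) a1
      (hA1 x) hcop hmod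
    show cuspMk N (γ x) = cuspMk N g
    rw [cuspMk_eq_iff, hγ0, hγ1]
    refine ⟨u * v, t, ?_, ?_⟩
    · have h2 : ((g 0 0 : ℤ) : ZMod N) = u * (a1 : ZMod N) := by
        rw [ha1', ← mul_assoc, Units.mul_inv, one_mul]
      rw [h2, hv1, Units.val_mul, mul_assoc]
    · rw [hc, Units.val_mul, mul_assoc, ← hv2]

end Fermat.Agent.P1Count
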