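import Mathlib

set_option autoImplicit false

/-!
# Orbit counting: parity and the Riemann–Hurwitz inequality for permutation triples

For permutations `S`, `U` of a finite set `X` and `T = S * U`:

* `even_card_add_orbits` : `card X + orbits S + orbits U + orbits T` is even;
* `orbits_add_orbits_add_orbits_le` : if `S` and `U` generate a transitive group then
  `orbits S + orbits U + orbits T ≤ card X + 2`.
-/

namespace Fermat.Agent.P1Parity

open Equiv Equiv.Perm

section Defs

variable {X : Type*}

/-- The number of orbits of a permutation. -/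
noncomputable def orbits (p : Perm X) : ℕ :=
  Nat.card (MulAction.orbitRel.Quotient (Subgroup.zpowers p) X)

theorem mem_orbit_iff {p : Perm X} {x y : X} :
    x ∈ MulAction.orbit (Subgroup.zpowers p) y ↔ ∃ k : ℤ, (p ^ k) y = x := by
  constructor
  · rintro ⟨⟨g, k, rfl⟩, rfl⟩
    exact ⟨k, rfl⟩
  · rintro ⟨k, rfl⟩
    exact ⟨⟨p ^ k, k, rfl⟩, rfl⟩

theorem mk_eq_mk_iff {p : Perm X} {x y : X} :
    (Quotient.mk (MulAction.orbitRel (Subgroup.zpowers p) X) x
      = Quotient.mk (MulAction.orbitRel (Subgroup.zpowers p) X) y) ↔ p.SameCycle x y := by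
  rw [Quotient.eq, MulAction.orbitRel_apply, mem_orbit_iff]
  constructor
  · rintro ⟨k, hk⟩
    exact Equiv.Perm.SameCycle.symm ⟨k, hk⟩
  · intro h
    obtain ⟨k, hk⟩ := h.symm
    exact ⟨k, hk⟩

end Defs

section Parity

variable {X : Type*} [Fintype X] [DecidableEq X]

theorem orbits_eq (p : Perm X) :
    orbits p = Fintype.card {x : X // p x = x} + p.cycleFactorsFinset.card := by
  classical
  let f : X → {x : X // p x = x} ⊕ {c : Perm X // c ∈ p.cycleFactorsFinset} := fun x =>
    if h : p x = x then Sum.inl ⟨x, h⟩
    else Sum.inr ⟨p.cycleOf x, cycleOf_mem_cycleFactorsFinset_iff.mpr (mem_support.mpr h)⟩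
  have hf : ∀ x y, p.SameCycle x y ↔ f x = f y := by
    intro x y
    by_cases hx : p x = x
    · by_cases hy : p y = y
      · simp only [f, dif_pos hx, dif_pos hy, Sum.inl.injEq, Subtype.mk.injEq]
        constructor
        · intro h
          exact h.eq_of_left hx
        · rintro rfl
          exact SameCycle.refl _ _
      · simp only [f, dif_pos hx, dif_neg hy, reduceCtorEq, iff_false]
        intro h
        exact hy (h.apply_eq_self_iff.mp hx)
    · by_cases hy : p y = y
      · simp only [f, dif_neg hx, dif_pos hy, reduceCtorEq, iff_false]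
        intro h
        exact hx (h.apply_eq_self_iff.mpr hy)
      · simp only [f, dif_neg hx, dif_neg hy, Sum.inr.injEq, Subtype.mk.injEq]
        exact sameCycle_iff_cycleOf_eq_of_mem_support (mem_support.mpr hx) (mem_support.mpr hy)
  have hsurj : Function.Surjective f := by
    rintro (⟨x, hx⟩ | ⟨c, hc⟩)
    · exact ⟨x, by simp only [f, dif_pos hx]⟩
    · obtain ⟨x, hx⟩ := (mem_cycleFactorsFinset_iff.mp hc).1.nonempty_support
      have hcx := (mem_cycleFactorsFinset_iff.mp hc).2 x hx
      have hpx : p x ≠ x := by
        rw [← hcx]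
        exact mem_support.mp hx
      refine ⟨x, ?_⟩
      simp only [f, dif_neg hpx, Sum.inr.injEq, Subtype.mk.injEq]
      exact (cycle_is_cycleOf hx hc).symm
  have e : MulAction.orbitRel.Quotient (Subgroup.zpowers p) X ≃
      {x : X // p x = x} ⊕ {c : Perm X // c ∈ p.cycleFactorsFinset} := by
    refine Equiv.ofBijective (Quotient.lift f ?_) ⟨?_, ?_⟩
    · intro a b hab
      exact (hf a b).mp (mk_eq_mk_iff.mp (Quotient.sound hab))
    · intro q r
      induction q using Quotient.inductionOn with
      | _ a =>
        induction r using Quotient.inductionOn with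
        | _ b =>
          intro h
          exact mk_eq_mk_iff.mpr ((hf a b).mpr h)
    · intro s
      obtain ⟨x, rfl⟩ := hsurj s
      exact ⟨Quotient.mk _ x, rfl⟩
  rw [orbits, Nat.card_congr e, Nat.card_eq_fintype_card, Fintype.card_sum, Fintype.card_coe]

theorem orbits_add_sum (p : Perm X) :
    orbits p + p.cycleType.sum = Fintype.card X + Multiset.card p.cycleType := by
  have h1 : Fintype.card {x : X // p x = x} + p.support.card = Fintype.card X := by
    have h3 := Finset.card_filter_add_card_filter_not (s := (Finset.univ : Finset X))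
      (fun x : X => p x = x)
    rw [Fintype.card_subtype, ← Finset.card_univ, ← h3]
    rfl
  have h2 : Multiset.card p.cycleType = p.cycleFactorsFinset.card := by
    rw [cycleType_def, Multiset.card_map]
    rfl
  rw [sum_cycleType, orbits_eq, h2]
  omega

theorem sign_eq_neg_one_pow (p : Perm X) :
    sign p = (-1 : ℤˣ) ^ (Fintype.card X + orbits p) := by
  have h := orbits_add_sum p
  have h' : Fintype.card X + orbits p = p.cycleType.sum + Multiset.card p.cycleType
      + 2 * (orbits p - Multiset.card p.cycleType) := by
    have : Multiset.card p.cycleType ≤ orbits p := by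
      have h2 : Multiset.card p.cycleType = p.cycleFactorsFinset.card := by
        rw [cycleType_def, Multiset.card_map]
        rfl
      rw [h2, orbits_eq]
      exact Nat.le_add_left _ _
    omega
  rw [h', pow_add, pow_mul, sign_of_cycleType]
  simp

/-- (E1) parity. -/
theorem even_card_add_orbits (S U T : Perm X) (hT : T = S * U) :
    Even (Fintype.card X + orbits S + orbits U + orbits T) := by
  have h : sign T = sign S * sign U := by rw [hT, map_mul]
  rw [sign_eq_neg_one_pow, sign_eq_neg_one_pow S, sign_eq_neg_one_pow U, ← pow_add] at h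
  have h2 : ((-1 : ℤˣ)) ^ (Fintype.card X + orbits T +
      (Fintype.card X + orbits S + (Fintype.card X + orbits U))) = 1 := by
    rw [pow_add, h, ← pow_add]
    exact Even.neg_one_pow ⟨_, rfl⟩
  have h3 : Even (Fintype.card X + orbits T +
      (Fintype.card X + orbits S + (Fintype.card X + orbits U))) := by
    by_contra hne
    rw [Nat.not_even_iff_odd] at hne
    rw [hne.neg_one_pow] at h2
    exact absurd h2 (by decide)
  obtain ⟨k, hk⟩ := h3
  exact ⟨k - Fintype.card X, by omega⟩

end Parity

section Inequality

variable {X : Type*}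

/-- functions invariant under a permutation -/
def inv (p : Perm X) : Submodule ℚ (X → ℚ) where
  carrier := {f | ∀ x, f (p x) = f x}
  zero_mem' := fun _ => rfl
  add_mem' := by
    intro f g hf hg x
    simp only [Pi.add_apply, hf x, hg x]
  smul_mem' := by
    intro c f hf x
    simp only [Pi.smul_apply, hf x]

theorem mem_inv {p : Perm X} {f : X → ℚ} : f ∈ inv p ↔ ∀ x, f (p x) = f x := Iff.rfl

theorem inv_zpow {p : Perm X} {f : X → ℚ} (hf : f ∈ inv p) (k : ℤ) (x : X) :
    f ((p ^ k) x) = f x := by
  induction k using Int.induction_on generalizing x with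
  | zero => simp
  | succ n ih =>
    rw [zpow_add_one, Perm.mul_apply, ih, hf]
  | pred n ih =>
    rw [zpow_sub_one, Perm.mul_apply, ih]
    have := hf (p⁻¹ x)
    have h2 : p (p⁻¹ x) = x := by simp
    rw [h2] at this
    exact this.symm

/-- Invariant functions are functions on the set of orbits. -/
def invEquiv (p : Perm X) :
    inv p ≃ₗ[ℚ] (MulAction.orbitRel.Quotient (Subgroup.zpowers p) X → ℚ) where
  toFun f := Quotient.lift (f : X → ℚ) (by
    intro a b hab
    obtain ⟨k, hk⟩ := mk_eq_mk_iff.mp (Quotient.sound hab)
    rw [← hk, inv_zpow f.2])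
  map_add' f g := by
    ext q
    induction q using Quotient.inductionOn with
    | _ a => rfl
  map_smul' c f := by
    ext q
    induction q using Quotient.inductionOn with
    | _ a => rfl
  invFun F := ⟨fun x => F (Quotient.mk _ x), by
    intro x
    refine congrArg F (mk_eq_mk_iff.mpr ?_)
    exact ⟨-1, by simp⟩⟩
  left_inv f := by
    ext x
    rfl
  right_inv F := by
    ext q
    induction q using Quotient.inductionOn with
    | _ a => rfl

variable [Fintype X]

theorem finrank_inv (p : Perm X) : Module.finrank ℚ (inv p) = orbits p := by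
  classical
  haveI : Finite (MulAction.orbitRel.Quotient (Subgroup.zpowers p) X) :=
    Quotient.finite _
  haveI := Fintype.ofFinite (MulAction.orbitRel.Quotient (Subgroup.zpowers p) X)
  rw [(invEquiv p).finrank_eq, Module.finrank_fintype_fun_eq_card, orbits,
    Nat.card_eq_fintype_card]

theorem sum_comp_perm (p : Perm X) (f : X → ℚ) : ∑ x, f (p x) = ∑ x, f x :=
  Equiv.sum_comp p f

/-- (E2) the Riemann–Hurwitz inequality. -/
theorem orbits_add_orbits_add_orbits_le [Nonempty X] (S U T : Perm X) (hT : T = S * U)
    (htrans : ∀ x y : X, ∃ g ∈ Subgroup.closure ({S, U} : Set (Perm X)), g x = y) :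
    orbits S + orbits U + orbits T ≤ Fintype.card X + 2 := by
  classical
  -- the difference map
  let φ : inv T →ₗ[ℚ] (X → ℚ) :=
    { toFun := fun f x => (f : X → ℚ) x - (f : X → ℚ) (S x)
      map_add' := by
        intro f g
        ext x
        simp only [Submodule.coe_add, Pi.add_apply]
        ring
      map_smul' := by
        intro c f
        ext x
        simp only [Submodule.coe_smul, Pi.smul_apply, smul_eq_mul, RingHom.id_apply]
        ring }
  -- constants
  have hconst : ∀ f : X → ℚ, f ∈ inv S → f ∈ inv U → ∀ x y, f x = f y := by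
    intro f hS hU x y
    obtain ⟨g, hg, rfl⟩ := htrans x y
    have key : ∀ g ∈ Subgroup.closure ({S, U} : Set (Perm X)), ∀ x, f (g x) = f x := by
      intro g hg
      induction hg using Subgroup.closure_induction with
      | mem g hg =>
        rcases hg with rfl | rfl
        · exact hS
        · exact hU
      | one => intro x; rfl
      | mul a b _ _ ha hb => intro x; rw [Perm.mul_apply, ha, hb]
      | inv a _ ha =>
        intro x
        have := ha (a⁻¹ x)
        have h2 : a (a⁻¹ x) = x := by simp
        rw [h2] at this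
        exact this.symm
    exact (key g hg x).symm
  -- finrank of the intersection
  have hInf : Module.finrank ℚ ↥(inv S ⊓ inv U) ≤ 1 := by
    obtain ⟨x₀⟩ := ‹Nonempty X›
    refine finrank_le_one (⟨fun _ => 1, ⟨fun _ => rfl, fun _ => rfl⟩⟩ : ↥(inv S ⊓ inv U)) ?_
    rintro ⟨f, hf⟩
    refine ⟨f x₀, ?_⟩
    ext x
    simp only [Submodule.coe_smul, Pi.smul_apply, smul_eq_mul, mul_one]
    exact hconst f hf.1 hf.2 x₀ x
  -- kernel of φ
  have hker : Module.finrank ℚ (LinearMap.ker φ) ≤ 1 := by
    obtain ⟨x₀⟩ := ‹Nonempty X›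
    refine finrank_le_one (⟨⟨fun _ => 1, fun _ => rfl⟩, ?_⟩ : LinearMap.ker φ) ?_
    · rw [LinearMap.mem_ker]
      ext x
      simp [φ]
    · rintro ⟨⟨f, hf⟩, hfk⟩
      rw [LinearMap.mem_ker] at hfk
      have hS : f ∈ inv S := by
        intro x
        have := congrFun hfk x
        simp only [φ, LinearMap.coe_mk, AddHom.coe_mk, Pi.zero_apply] at this
        linarith
      have hU : f ∈ inv U := by
        intro x
        have h1 := hf x
        rw [hT, Perm.mul_apply, hS] at h1
        exact h1
      refine ⟨f x₀, ?_⟩
      ext x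
      simp only [Submodule.coe_smul, Pi.smul_apply, smul_eq_mul, mul_one]
      exact hconst f hS hU x₀ x
  -- orthogonality
  have horth : ∀ f : inv T, ∀ g ∈ inv S ⊔ inv U, ∑ x, φ f x * g x = 0 := by
    intro f g hg
    obtain ⟨a, ha, b, hb, rfl⟩ := Submodule.mem_sup.mp hg
    have h1 : ∑ x, φ f x * a x = 0 := by
      have e1 : ∑ x, (f : X → ℚ) (S x) * a (S x) = ∑ x, (f : X → ℚ) x * a x :=
        sum_comp_perm S (fun x => (f : X → ℚ) x * a x)
      have e2 : ∑ x, φ f x * a x
          = ∑ x, (f : X → ℚ) x * a x - ∑ x, (f : X → ℚ) (S x) * a (S x) := by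
        rw [← Finset.sum_sub_distrib]
        refine Finset.sum_congr rfl fun x _ => ?_
        rw [ha x]
        simp only [φ, LinearMap.coe_mk, AddHom.coe_mk]
        ring
      rw [e2, e1, sub_self]
    have h2 : ∑ x, φ f x * b x = 0 := by
      have e1 : ∑ x, φ f x * b x = ∑ x, φ f (U x) * b (U x) :=
        (sum_comp_perm U (fun x => φ f x * b x)).symm
      have e3 : ∀ x, (f : X → ℚ) (S (U x)) = (f : X → ℚ) x := by
        intro x
        have h4 : T x = S (U x) := by rw [hT, Perm.mul_apply]
        rw [← h4]
        exact f.2 x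
      have e2 : ∑ x, φ f (U x) * b (U x)
          = ∑ x, (f : X → ℚ) (U x) * b (U x) - ∑ x, (f : X → ℚ) x * b x := by
        rw [← Finset.sum_sub_distrib]
        refine Finset.sum_congr rfl fun x _ => ?_
        simp only [φ, LinearMap.coe_mk, AddHom.coe_mk]
        rw [e3, hb x]
        ring
      rw [e1, e2, sum_comp_perm U (fun x => (f : X → ℚ) x * b x), sub_self]
    simp only [Pi.add_apply, mul_add, Finset.sum_add_distrib, h1, h2, add_zero]
  have hdisj : Disjoint (inv S ⊔ inv U) (LinearMap.range φ) := by
    rw [Submodule.disjoint_def]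
    rintro g hg ⟨f, rfl⟩
    have h := horth f (φ f) hg
    have h' : ∀ x ∈ Finset.univ, φ f x * φ f x = 0 :=
      (Finset.sum_eq_zero_iff_of_nonneg fun x _ => mul_self_nonneg _).mp h
    ext x
    exact mul_self_eq_zero.mp (h' x (Finset.mem_univ x))
  have hdim : Module.finrank ℚ ↥(inv S ⊔ inv U) + Module.finrank ℚ (LinearMap.range φ)
      ≤ Fintype.card X := by
    rw [← Module.finrank_fintype_fun_eq_card ℚ, ← Submodule.finrank_sup_add_finrank_inf_eq,
      hdisj.eq_bot, finrank_bot, add_zero]
    exact Submodule.finrank_le _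
  have h1 := Submodule.finrank_sup_add_finrank_inf_eq (inv S) (inv U)
  have h2 := LinearMap.finrank_range_add_finrank_ker φ
  rw [finrank_inv, finrank_inv] at h1
  rw [finrank_inv] at h2
  omega

end Inequality

end Fermat.Agent.P1Parity
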