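import Mathlib
import Fermat.Agent.P1Count.Parity

set_option autoImplicit false

/-!
# Parity and Riemann–Hurwitz inequality for `SL(2, ℤ) ⧸ Γ₀(N)`
-/

namespace Fermat.Agent.P1Parity

open scoped MatrixGroups
open ModularGroup

section Group

variable {G X : Type*} [Group G] [MulAction G X]

theorem toPerm_zpow (g : G) (k : ℤ) (x : X) : ((MulAction.toPerm g : Equiv.Perm X) ^ k) x = (g ^ k) • x := by
  have h : (MulAction.toPerm g : Equiv.Perm X) = MulAction.toPermHom G X g := rfl
  rw [h, ← map_zpow]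
  rfl

/-- Orbits of the cyclic group generated by `g` are orbits of the permutation given by `g`. -/
theorem card_orbits_zpowers (g : G) :
    Nat.card (MulAction.orbitRel.Quotient (Subgroup.zpowers g) X)
      = orbits (MulAction.toPerm g : Equiv.Perm X) := by
  refine Nat.card_congr (Quotient.congr (Equiv.refl X) fun a b => ?_)
  change a ∈ MulAction.orbit (Subgroup.zpowers g) b
    ↔ a ∈ MulAction.orbit (Subgroup.zpowers (MulAction.toPerm g : Equiv.Perm X)) b
  rw [mem_orbit_iff]
  constructor
  · rintro ⟨⟨h, k, rfl⟩, rfl⟩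
    exact ⟨k, toPerm_zpow g k b⟩
  · rintro ⟨k, rfl⟩
    exact ⟨⟨g ^ k, k, rfl⟩, (toPerm_zpow g k b).symm⟩

end Group

section SL2

variable {X : Type*} [MulAction SL(2, ℤ) X]

/-- general statement for a finite transitive `SL(2, ℤ)`-set on which `-1` acts trivially -/
theorem even_of_neg_one [Fintype X] (hneg : ∀ x : X, (-1 : SL(2, ℤ)) • x = x) :
    Even (Fintype.card X
      + Nat.card (MulAction.orbitRel.Quotient (Subgroup.zpowers S) X)
      + Nat.card (MulAction.orbitRel.Quotient (Subgroup.zpowers (S * T)) X)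
      + Nat.card (MulAction.orbitRel.Quotient (Subgroup.zpowers T) X)) := by
  classical
  rw [card_orbits_zpowers, card_orbits_zpowers, card_orbits_zpowers]
  refine even_card_add_orbits _ _ _ ?_
  ext x
  change T • x = S • (S * T) • x
  rw [← mul_smul, ← mul_assoc]
  have h : (S * S : SL(2, ℤ)) = -1 := by
    ext i j
    fin_cases i <;> fin_cases j <;> simp [S]
  rw [h, mul_smul, hneg]

theorem orbits_le_of_neg_one [Fintype X] [Nonempty X] (hneg : ∀ x : X, (-1 : SL(2, ℤ)) • x = x)
    (htrans : MulAction.IsPretransitive SL(2, ℤ) X) :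
    Nat.card (MulAction.orbitRel.Quotient (Subgroup.zpowers S) X)
      + Nat.card (MulAction.orbitRel.Quotient (Subgroup.zpowers (S * T)) X)
      + Nat.card (MulAction.orbitRel.Quotient (Subgroup.zpowers T) X)
      ≤ Fintype.card X + 2 := by
  classical
  have h : (S * S : SL(2, ℤ)) = -1 := by
    ext i j
    fin_cases i <;> fin_cases j <;> simp [S]
  rw [card_orbits_zpowers, card_orbits_zpowers, card_orbits_zpowers]
  refine orbits_add_orbits_add_orbits_le _ _ _ ?_ ?_
  · ext x
    change T • x = S • (S * T) • x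
    rw [← mul_smul, ← mul_assoc, h, mul_smul, hneg]
  · intro x y
    obtain ⟨g, rfl⟩ := htrans.exists_smul_eq x y
    refine ⟨MulAction.toPermHom _ X g, ?_, rfl⟩
    have hg : g ∈ Subgroup.closure ({S, T} : Set SL(2, ℤ)) := by
      rw [SpecialLinearGroup.SL2Z_generators]
      trivial
    have hmap : MulAction.toPermHom _ X g ∈
        (Subgroup.closure ({S, T} : Set SL(2, ℤ))).map (MulAction.toPermHom _ X) :=
      Subgroup.mem_map_of_mem _ hg
    rw [MonoidHom.map_closure] at hmap
    refine (Subgroup.closure_le _).mpr ?_ hmap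
    rintro _ ⟨u, hu, rfl⟩
    rcases hu with rfl | rfl
    · exact Subgroup.subset_closure (Or.inl rfl)
    · have h1 : (MulAction.toPermHom _ X T : Equiv.Perm X)
          = (MulAction.toPerm S : Equiv.Perm X)⁻¹ * MulAction.toPerm (S * T) := by
        rw [eq_inv_mul_iff_mul_eq]
        ext x
        exact (mul_smul S T x).symm
      rw [h1]
      exact Subgroup.mul_mem _ (Subgroup.inv_mem _ (Subgroup.subset_closure (Or.inl rfl)))
        (Subgroup.subset_closure (Or.inr rfl))

theorem neg_one_smul_quotient (N : ℕ) (x : SL(2, ℤ) ⧸ CongruenceSubgroup.Gamma0 N) :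
    (-1 : SL(2, ℤ)) • x = x := by
  induction x using QuotientGroup.induction_on with
  | H g =>
    refine QuotientGroup.eq.mpr ?_
    have : ((-1 : SL(2, ℤ)) • g)⁻¹ * g = -1 := by
      rw [smul_eq_mul, neg_mul, one_mul]
      rw [inv_mul_eq_iff_eq_mul]
      simp
    rw [this, CongruenceSubgroup.Gamma0_mem]
    simp

/-- (E1) for `Γ₀(N)`. -/
theorem even_card_Gamma0 (N : ℕ) [NeZero N] :
    Even (Nat.card (SL(2, ℤ) ⧸ CongruenceSubgroup.Gamma0 N)
      + Nat.card (MulAction.orbitRel.Quotient (Subgroup.zpowers S)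
          (SL(2, ℤ) ⧸ CongruenceSubgroup.Gamma0 N))
      + Nat.card (MulAction.orbitRel.Quotient (Subgroup.zpowers (S * T))
          (SL(2, ℤ) ⧸ CongruenceSubgroup.Gamma0 N))
      + Nat.card (MulAction.orbitRel.Quotient (Subgroup.zpowers T)
          (SL(2, ℤ) ⧸ CongruenceSubgroup.Gamma0 N))) := by
  have : Finite (SL(2, ℤ) ⧸ CongruenceSubgroup.Gamma0 N) := inferInstance
  have : Fintype (SL(2, ℤ) ⧸ CongruenceSubgroup.Gamma0 N) := Fintype.ofFinite _
  rw [Nat.card_eq_fintype_card (α := SL(2, ℤ) ⧸ CongruenceSubgroup.Gamma0 N)]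
  exact even_of_neg_one (neg_one_smul_quotient N)

/-- (E2) for `Γ₀(N)`. -/
theorem orbits_le_Gamma0 (N : ℕ) [NeZero N] :
    Nat.card (MulAction.orbitRel.Quotient (Subgroup.zpowers S)
          (SL(2, ℤ) ⧸ CongruenceSubgroup.Gamma0 N))
      + Nat.card (MulAction.orbitRel.Quotient (Subgroup.zpowers (S * T))
          (SL(2, ℤ) ⧸ CongruenceSubgroup.Gamma0 N))
      + Nat.card (MulAction.orbitRel.Quotient (Subgroup.zpowers T)
          (SL(2, ℤ) ⧸ CongruenceSubgroup.Gamma0 N))
      ≤ Nat.card (SL(2, ℤ) ⧸ CongruenceSubgroup.Gamma0 N) + 2 := by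
  have : Finite (SL(2, ℤ) ⧸ CongruenceSubgroup.Gamma0 N) := inferInstance
  have : Fintype (SL(2, ℤ) ⧸ CongruenceSubgroup.Gamma0 N) := Fintype.ofFinite _
  rw [Nat.card_eq_fintype_card (α := SL(2, ℤ) ⧸ CongruenceSubgroup.Gamma0 N)]
  exact orbits_le_of_neg_one (neg_one_smul_quotient N) inferInstance

end SL2

section Count

variable {X : Type*} [Fintype X] [DecidableEq X]

/-- An involution: `2 * orbits = card + fixed points`. -/
theorem two_mul_orbits_of_sq (p : Equiv.Perm X) (hp : ∀ x, p (p x) = x) :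
    2 * orbits p = Fintype.card X + Fintype.card {x : X // p x = x} := by
  have h1 := orbits_eq p
  have h2 : p.support.card = 2 * p.cycleFactorsFinset.card := by
    have hpp : p ^ 2 = 1 := by
      ext x
      simp [pow_two, hp]
    have h3 := Equiv.Perm.sum_cycleType p
    have h4 : ∀ n ∈ p.cycleType, n = 2 := by
      intro n hn
      have hdvd : n ∣ 2 := (Equiv.Perm.dvd_of_mem_cycleType hn).trans (orderOf_dvd_of_pow_eq_one hpp)
      have := Equiv.Perm.two_le_of_mem_cycleType hn
      exact le_antisymm (Nat.le_of_dvd two_pos hdvd) this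
    have h5 : p.cycleType = Multiset.replicate (Multiset.card p.cycleType) 2 :=
      Multiset.eq_replicate_card.mpr h4
    have h6 : Multiset.card p.cycleType = p.cycleFactorsFinset.card := by
      rw [Equiv.Perm.cycleType_def, Multiset.card_map]
      rfl
    rw [← h3, h5, Multiset.sum_replicate, h6, smul_eq_mul, mul_comm]
  have h7 : Fintype.card {x : X // p x = x} + p.support.card = Fintype.card X := by
    have h3 := Finset.card_filter_add_card_filter_not (s := (Finset.univ : Finset X))
      (fun x : X => p x = x)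
    rw [Fintype.card_subtype, ← Finset.card_univ, ← h3]
    rfl
  omega

/-- A permutation of order dividing three: `3 * orbits = card + 2 * fixed points`. -/
theorem three_mul_orbits_of_cube (p : Equiv.Perm X) (hp : ∀ x, p (p (p x)) = x) :
    3 * orbits p = Fintype.card X + 2 * Fintype.card {x : X // p x = x} := by
  have h1 := orbits_eq p
  have h2 : p.support.card = 3 * p.cycleFactorsFinset.card := by
    have hpp : p ^ 3 = 1 := by
      ext x
      simp [pow_succ, hp]
    have h3 := Equiv.Perm.sum_cycleType p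
    have h4 : ∀ n ∈ p.cycleType, n = 3 := by
      intro n hn
      have hdvd : n ∣ 3 := (Equiv.Perm.dvd_of_mem_cycleType hn).trans (orderOf_dvd_of_pow_eq_one hpp)
      have h8 := Equiv.Perm.two_le_of_mem_cycleType hn
      rcases (Nat.dvd_prime Nat.prime_three).mp hdvd with h | h
      · omega
      · exact h
    have h5 : p.cycleType = Multiset.replicate (Multiset.card p.cycleType) 3 :=
      Multiset.eq_replicate_card.mpr h4
    have h6 : Multiset.card p.cycleType = p.cycleFactorsFinset.card := by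
      rw [Equiv.Perm.cycleType_def, Multiset.card_map]
      rfl
    rw [← h3, h5, Multiset.sum_replicate, h6, smul_eq_mul, mul_comm]
  have h7 : Fintype.card {x : X // p x = x} + p.support.card = Fintype.card X := by
    have h3 := Finset.card_filter_add_card_filter_not (s := (Finset.univ : Finset X))
      (fun x : X => p x = x)
    rw [Fintype.card_subtype, ← Finset.card_univ, ← h3]
    rfl
  omega

end Count

section Final

theorem S_smul_S_smul {X : Type*} [MulAction SL(2, ℤ) X]
    (hneg : ∀ x : X, (-1 : SL(2, ℤ)) • x = x) (x : X) : S • S • x = x := by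
  have h : (S * S : SL(2, ℤ)) = -1 := by
    ext i j
    fin_cases i <;> fin_cases j <;> simp [S]
  rw [← mul_smul, h, hneg]

theorem ST_smul_cube {X : Type*} [MulAction SL(2, ℤ) X]
    (hneg : ∀ x : X, (-1 : SL(2, ℤ)) • x = x) (x : X) :
    (S * T) • (S * T) • (S * T) • x = x := by
  have h : ((S * T) * ((S * T) * (S * T)) : SL(2, ℤ)) = -1 := by
    ext i j
    fin_cases i <;> fin_cases j <;> simp [S, T]
  rw [← mul_smul, ← mul_smul, mul_assoc, h, hneg]

/-- `2 * #orbits(S) = index + #fixed(S)` for `Γ₀(N)`. -/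
theorem two_mul_orbits_S (N : ℕ) [NeZero N] :
    2 * Nat.card (MulAction.orbitRel.Quotient (Subgroup.zpowers S)
          (SL(2, ℤ) ⧸ CongruenceSubgroup.Gamma0 N))
      = Nat.card (SL(2, ℤ) ⧸ CongruenceSubgroup.Gamma0 N)
        + Nat.card {x : SL(2, ℤ) ⧸ CongruenceSubgroup.Gamma0 N // S • x = x} := by
  classical
  have : Finite (SL(2, ℤ) ⧸ CongruenceSubgroup.Gamma0 N) := inferInstance
  have : Fintype (SL(2, ℤ) ⧸ CongruenceSubgroup.Gamma0 N) := Fintype.ofFinite _
  have e : Nat.card (MulAction.orbitRel.Quotient (Subgroup.zpowers S)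
      (SL(2, ℤ) ⧸ CongruenceSubgroup.Gamma0 N)) = orbits (MulAction.toPerm S) :=
    card_orbits_zpowers S
  rw [e, Nat.card_eq_fintype_card, Nat.card_eq_fintype_card]
  exact two_mul_orbits_of_sq _ (S_smul_S_smul (neg_one_smul_quotient N))

/-- `3 * #orbits(ST) = index + 2 * #fixed(ST)` for `Γ₀(N)`. -/
theorem three_mul_orbits_ST (N : ℕ) [NeZero N] :
    3 * Nat.card (MulAction.orbitRel.Quotient (Subgroup.zpowers (S * T))
          (SL(2, ℤ) ⧸ CongruenceSubgroup.Gamma0 N))
      = Nat.card (SL(2, ℤ) ⧸ CongruenceSubgroup.Gamma0 N)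
        + 2 * Nat.card {x : SL(2, ℤ) ⧸ CongruenceSubgroup.Gamma0 N // (S * T) • x = x} := by
  classical
  have : Finite (SL(2, ℤ) ⧸ CongruenceSubgroup.Gamma0 N) := inferInstance
  have : Fintype (SL(2, ℤ) ⧸ CongruenceSubgroup.Gamma0 N) := Fintype.ofFinite _
  have e : Nat.card (MulAction.orbitRel.Quotient (Subgroup.zpowers (S * T))
      (SL(2, ℤ) ⧸ CongruenceSubgroup.Gamma0 N)) = orbits (MulAction.toPerm (S * T)) :=
    card_orbits_zpowers (S * T)
  rw [e, Nat.card_eq_fintype_card, Nat.card_eq_fintype_card]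
  exact three_mul_orbits_of_cube _ (ST_smul_cube (neg_one_smul_quotient N))

end Final

end Fermat.Agent.P1Parity
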