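import Mathlib
import Fermat.Prelude.Def_ModularCurve_GenusNumerics

/-!
# Counting on `SL(2,ℤ) ⧸ Γ₀(N)` (the projective line over `ℤ/N`)

Basic facts: a left coset of `Γ₀(N)` is determined by its first column modulo `N`, up to units.
-/

set_option autoImplicit false

namespace Fermat.Agent.P1Count

open Matrix Matrix.SpecialLinearGroup CongruenceSubgroup ModularCurve
open scoped MatrixGroups

/-- Two elements of `SL(2,ℤ)` lie in the same left coset of `Γ₀(N)` iff their first columns are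
proportional modulo `N`. -/
theorem mk_eq_mk_iff (N : ℕ) (g h : SL(2, ℤ)) :
    (QuotientGroup.mk g : SL(2, ℤ) ⧸ Gamma0 N) = QuotientGroup.mk h ↔
      ∃ u : (ZMod N)ˣ, ((h 0 0 : ℤ) : ZMod N) = u * ((g 0 0 : ℤ) : ZMod N) ∧
        ((h 1 0 : ℤ) : ZMod N) = u * ((g 1 0 : ℤ) : ZMod N) := by
  have hdet : (g 0 0) * (g 1 1) - (g 0 1) * (g 1 0) = 1 := by
    have := g.det_coe; rwa [Matrix.det_fin_two] at this
  have hdet' : (h 0 0) * (h 1 1) - (h 0 1) * (h 1 0) = 1 := by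
    have := h.det_coe; rwa [Matrix.det_fin_two] at this
  have h10 : (g⁻¹ * h) 1 0 = g 0 0 * h 1 0 - g 1 0 * h 0 0 := by
    simp [SpecialLinearGroup.coe_mul, Matrix.mul_apply, Fin.sum_univ_two, SL2_inv_expl]; ring
  rw [QuotientGroup.eq, Gamma0_mem, h10]
  constructor
  · intro h0
    have h0' : ((g 0 0 : ℤ) : ZMod N) * (h 1 0 : ℤ) = (g 1 0 : ℤ) * (h 0 0 : ℤ) := by
      push_cast at h0
      linear_combination h0
    have hd : ((g 0 0 : ℤ) : ZMod N) * (g 1 1 : ℤ) - (g 0 1 : ℤ) * (g 1 0 : ℤ) = 1 := by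
      exact_mod_cast congrArg (Int.cast : ℤ → ZMod N) hdet
    have hd' : ((h 0 0 : ℤ) : ZMod N) * (h 1 1 : ℤ) - (h 0 1 : ℤ) * (h 1 0 : ℤ) = 1 := by
      exact_mod_cast congrArg (Int.cast : ℤ → ZMod N) hdet'
    set u : ZMod N := (g 1 1 : ℤ) * (h 0 0 : ℤ) - (g 0 1 : ℤ) * (h 1 0 : ℤ) with hu
    set v : ZMod N := (g 0 0 : ℤ) * (h 1 1 : ℤ) - (g 1 0 : ℤ) * (h 0 1 : ℤ) with hv
    have huv : u * v = 1 := by
      have e : u * v - (((g 1 1 : ℤ) : ZMod N) * (h 0 1 : ℤ) - (g 0 1 : ℤ) * (h 1 1 : ℤ)) *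
          (((g 0 0 : ℤ) : ZMod N) * (h 1 0 : ℤ) - (g 1 0 : ℤ) * (h 0 0 : ℤ)) = 1 := by
        rw [hu, hv]
        linear_combination (((h 0 0 : ℤ) : ZMod N) * (h 1 1 : ℤ) - (h 0 1 : ℤ) * (h 1 0 : ℤ)) * hd
          + hd'
      rw [h0', sub_self, mul_zero, sub_zero] at e
      exact e
    refine ⟨⟨u, v, huv, by rw [mul_comm]; exact huv⟩, ?_, ?_⟩
    · show ((h 0 0 : ℤ) : ZMod N) = u * _
      rw [hu]
      linear_combination (-((h 0 0 : ℤ) : ZMod N)) * hd + ((g 0 1 : ℤ) : ZMod N) * h0'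
    · show ((h 1 0 : ℤ) : ZMod N) = u * _
      rw [hu]
      linear_combination (-((h 1 0 : ℤ) : ZMod N)) * hd + ((g 1 1 : ℤ) : ZMod N) * h0'
  · rintro ⟨u, h1, h2⟩
    push_cast
    rw [h1, h2]; ring

/-- Unimodular pairs in a commutative ring. -/
abbrev UniPair (R : Type*) [CommRing R] : Type _ := {v : R × R // IsCoprime v.1 v.2}

/-- Unimodular pairs modulo `N` lift to unimodular pairs of integers. -/
theorem exists_coprime_lift (N : ℕ) [NeZero N] (a c : ZMod N) (h : IsCoprime a c) :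
    ∃ x y : ℤ, IsCoprime x y ∧ (x : ZMod N) = a ∧ (y : ZMod N) = c := by
  -- lifts
  set a0 : ℕ := a.val with ha0
  set c0 : ℕ := c.val + N with hc0
  have hNpos : 0 < N := Nat.pos_of_ne_zero (NeZero.ne N)
  have hc0pos : 0 < c0 := by omega
  haveI : NeZero c0 := ⟨hc0pos.ne'⟩
  have ea : ((a0 : ℕ) : ZMod N) = a := ZMod.natCast_zmod_val a
  have ec : ((c0 : ℕ) : ZMod N) = c := by
    rw [hc0]; push_cast; rw [ZMod.natCast_zmod_val]; simp
  set n : ℕ := Nat.gcd N c0 with hn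
  have hnN : n ∣ N := Nat.gcd_dvd_left _ _
  have hnc : n ∣ c0 := Nat.gcd_dvd_right _ _
  have hcop : Nat.Coprime a0 n := by
    -- a prime dividing everything contradicts unimodularity
    rw [Nat.coprime_iff_gcd_eq_one]
    set e := Nat.gcd a0 n with he
    have hea : e ∣ a0 := Nat.gcd_dvd_left _ _
    have hen : e ∣ n := Nat.gcd_dvd_right _ _
    have heN : e ∣ N := hen.trans hnN
    obtain ⟨x, y, hxy⟩ := h
    have h1 := congrArg (ZMod.castHom heN (ZMod e)) hxy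
    rw [map_add, map_mul, map_mul, map_one, ← ea, ← ec, map_natCast, map_natCast,
      (ZMod.natCast_eq_zero_iff a0 e).2 hea, (ZMod.natCast_eq_zero_iff c0 e).2 (hen.trans hnc)] at h1
    have h2 : ((1 : ℕ) : ZMod e) = 0 := by simpa using h1.symm
    rw [ZMod.natCast_eq_zero_iff] at h2
    exact Nat.dvd_one.1 h2
  obtain ⟨y, hy⟩ := ZMod.unitsMap_surjective hnc (ZMod.unitOfCoprime a0 hcop)
  set a1 : ℕ := (y : ZMod c0).val with ha1
  have ha1c : Nat.Coprime a1 c0 := ZMod.val_coe_unit_coprime y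
  have hmod : ((a1 : ℕ) : ZMod n) = (a0 : ZMod n) := by
    have h1 := congrArg (fun u : (ZMod n)ˣ => (u : ZMod n)) hy
    simp only [ZMod.coe_unitOfCoprime] at h1
    rw [← h1, ZMod.unitsMap_val, ha1, ZMod.natCast_val]
  have hmod' : ((n : ℕ) : ℤ) ∣ (a1 : ℤ) - a0 := by
    have h2 : (((a1 : ℤ) - (a0 : ℤ) : ℤ) : ZMod n) = 0 := by
      push_cast; rw [hmod, sub_self]
    exact (ZMod.intCast_zmod_eq_zero_iff_dvd _ n).1 h2
  obtain ⟨k, hk⟩ := hmod'
  have hbez : ((n : ℕ) : ℤ) = N * Nat.gcdA N c0 + c0 * Nat.gcdB N c0 := Nat.gcd_eq_gcd_ab N c0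
  refine ⟨a0 + k * Nat.gcdA N c0 * N, c0, ?_, ?_, ?_⟩
  · have e1 : ((a0 : ℤ) + k * Nat.gcdA N c0 * N) = a1 + c0 * (-(k * Nat.gcdB N c0)) := by
      have : (a1 : ℤ) = a0 + (N * Nat.gcdA N c0 + c0 * Nat.gcdB N c0) * k := by
        rw [← hbez]; linarith
      rw [this]; ring
    rw [e1]
    exact (Nat.isCoprime_iff_coprime.2 ha1c).add_mul_left_left _
  · push_cast; simp [ea]
  · push_cast; exact ec

/-- Every unimodular pair modulo `N` is the first column of some element of `SL(2,ℤ)`. -/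
theorem exists_col (N : ℕ) [NeZero N] (a c : ZMod N) (h : IsCoprime a c) :
    ∃ g : SL(2, ℤ), ((g 0 0 : ℤ) : ZMod N) = a ∧ ((g 1 0 : ℤ) : ZMod N) = c := by
  obtain ⟨x, y, hxy, hx, hy⟩ := exists_coprime_lift N a c h
  obtain ⟨g, hg0, hg1⟩ := hxy.exists_SL2_col 0
  exact ⟨g, by rw [hg0]; exact hx, by rw [hg1]; exact hy⟩

theorem isCoprime_col_zmod (N : ℕ) (g : SL(2, ℤ)) :
    IsCoprime ((g 0 0 : ℤ) : ZMod N) ((g 1 0 : ℤ) : ZMod N) := by
  have := (isCoprime_col g 0).map (Int.castRingHom (ZMod N))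
  simpa using this

/-- A unimodular pair scaled by two units to the same pair: the units agree. -/
theorem unit_eq_of_mul_eq {R : Type*} [CommRing R] {a c : R} (h : IsCoprime a c) {u v : R}
    (h1 : u * a = v * a) (h2 : u * c = v * c) : u = v := by
  obtain ⟨x, y, hxy⟩ := h
  calc u = u * (x * a + y * c) := by rw [hxy, mul_one]
    _ = x * (u * a) + y * (u * c) := by ring
    _ = x * (v * a) + y * (v * c) := by rw [h1, h2]
    _ = v * (x * a + y * c) := by ring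
    _ = v := by rw [hxy, mul_one]

end Fermat.Agent.P1Count
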